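import Mathlib.Analysis.SpecialFunctions.Complex.LogBounds
import Mathlib.NumberTheory.SumPrimeReciprocals
import Mathlib.Analysis.PSeries

/-!
# Euler products with free phases take all values

As `∑ p^(-σ)` diverges and `∑ p^(-2σ)` converges, for every `a` and all large `M` there are phases
`z` with `-∑_{p ≤ M} log (1 - z p · p^(-σ))` close to `a`.
-/

set_option autoImplicit false

noncomputable section

namespace FA.BohrCourant

open Finset Filter Complex
open scoped Topology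

/-- The phases can cancel `a` up to the largest weight. -/
theorem exists_phases {ι : Type*} [DecidableEq ι] (s : Finset ι) {r : ι → ℝ} {ρ : ℝ}
    (hr : ∀ i ∈ s, 0 ≤ r i ∧ r i ≤ ρ) (a : ℂ) :
    ∃ z : ι → ℂ, (∀ i, ‖z i‖ = 1) ∧
      ‖a - ∑ i ∈ s, z i * r i‖ ≤ max (‖a‖ - ∑ i ∈ s, r i) ρ := by
  induction s using Finset.induction_on with
  | empty => exact ⟨fun _ => 1, fun _ => norm_one, by simp⟩
  | insert i s hi ih =>
    obtain ⟨z, hz, hle⟩ := ih fun j hj => hr j (mem_insert_of_mem hj)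
    obtain ⟨hr0, hrρ⟩ := hr i (mem_insert_self i s)
    obtain ⟨d, hd⟩ : ∃ d, d = a - ∑ j ∈ s, z j * r j := ⟨_, rfl⟩
    rw [← hd] at hle
    obtain ⟨u, hu⟩ : ∃ u : ℂ, u = cexp (d.arg * I) := ⟨_, rfl⟩
    have hud : d = ((‖d‖ : ℝ) : ℂ) * u := by rw [hu, Complex.norm_mul_exp_arg_mul_I]
    have hu1 : ‖u‖ = 1 := hu ▸ Complex.norm_exp_ofReal_mul_I _
    refine ⟨Function.update z i u, fun j => ?_, ?_⟩
    · rcases eq_or_ne j i with rfl | h
      · rwa [Function.update_self]
      · rw [Function.update_of_ne h]; exact hz j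
    rw [sum_insert hi, sum_insert hi, Function.update_self,
      sum_congr rfl fun j hj => by rw [Function.update_of_ne (ne_of_mem_of_not_mem hj hi)],
      show a - (u * r i + ∑ j ∈ s, z j * r j) = (((‖d‖ - r i : ℝ)) : ℂ) * u by
        push_cast
        linear_combination hud - hd,
      norm_mul, hu1, mul_one, Complex.norm_real, Real.norm_eq_abs, abs_le]
    have h1 : ‖d‖ - r i ≤ max (‖a‖ - (r i + ∑ j ∈ s, r j)) ρ := by
      rcases le_max_iff.1 hle with h | h
      · exact le_max_of_le_left (by linarith)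
      · exact le_max_of_le_right (by linarith)
    refine ⟨?_, h1⟩
    linarith [le_max_right (‖a‖ - (r i + ∑ j ∈ s, r j)) ρ, norm_nonneg d]

/-- `p ^ (-σ)` on the primes, `0` elsewhere. -/
def primeWeight (σ : ℝ) (n : ℕ) : ℝ := if n.Prime then (n : ℝ) ^ (-σ) else 0

theorem primeWeight_nonneg (σ : ℝ) (n : ℕ) : 0 ≤ primeWeight σ n := by
  unfold primeWeight
  split_ifs <;> positivity

theorem tendsto_sum_primeWeight {σ : ℝ} (hσ : σ ≤ 1) :
    Tendsto (fun M => ∑ n ∈ range M, primeWeight σ n) atTop atTop := by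
  rw [← not_summable_iff_tendsto_nat_atTop_of_nonneg (primeWeight_nonneg σ)]
  refine fun h => not_summable_one_div_on_primes (Summable.of_nonneg_of_le (fun n => ?_)
    (fun n => ?_) h)
  · exact Set.indicator_nonneg (fun m _ => by positivity) n
  · rw [primeWeight, Set.indicator_apply]
    simp only [Set.mem_ofPred_eq]
    split_ifs with hp
    · rw [one_div, ← Real.rpow_neg_one]
      exact Real.rpow_le_rpow_of_exponent_le (by exact_mod_cast hp.one_le) (by linarith)
    · exact le_rfl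

theorem summable_primeWeight_sq {σ : ℝ} (hσ : 1 / 2 < σ) :
    Summable fun n => primeWeight σ n ^ 2 := by
  refine Summable.of_nonneg_of_le (fun n => sq_nonneg _) (fun n => ?_)
    (Real.summable_nat_rpow.2 (show -(2 * σ) < -1 by linarith))
  rw [primeWeight]
  split_ifs
  · rw [← Real.rpow_natCast, ← Real.rpow_mul (Nat.cast_nonneg n)]
    exact le_of_eq (by push_cast; ring_nf)
  · rw [zero_pow two_ne_zero]; positivity

/-- **The phases.** -/
theorem exists_eulerPhases {σ : ℝ} (hσ : 1 / 2 < σ) (hσ1 : σ ≤ 1) (a : ℂ) {ε : ℝ} (hε : 0 < ε) :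
    ∃ M₀, ∀ M, M₀ ≤ M → ∃ z : ℕ → ℂ, (∀ n, ‖z n‖ = 1) ∧
      ‖(∑ n ∈ range M, log (1 - z n * primeWeight σ n)⁻¹) - a‖ < ε := by
  have hsq := summable_primeWeight_sq hσ
  obtain ⟨η, hη⟩ : ∃ η, η = min (1 / 2) (ε / 4) := ⟨_, rfl⟩
  have hη0 : 0 < η := hη ▸ lt_min (by norm_num) (by positivity)
  have hlim := hsq.hasSum.tendsto_sum_nat
  obtain ⟨N, hN⟩ := eventually_atTop.1
    (hlim.eventually (eventually_gt_nhds (show ∑' n, primeWeight σ n ^ 2 - η ^ 2 <
      ∑' n, primeWeight σ n ^ 2 by linarith [pow_pos hη0 2])))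
  have htail : ∀ M, N ≤ M → ∑ n ∈ Ico N M, primeWeight σ n ^ 2 ≤ η ^ 2 := fun M hM => by
    rw [sum_Ico_eq_sub _ hM]
    linarith [hN N le_rfl, hsq.sum_le_tsum (range M) fun n _ => sq_nonneg _]
  obtain ⟨b, hb⟩ : ∃ b, b = ∑ n ∈ range N, log (1 - (1 : ℂ) * primeWeight σ n)⁻¹ := ⟨_, rfl⟩
  obtain ⟨M₁, hM₁⟩ := eventually_atTop.1 ((tendsto_sum_primeWeight hσ1).eventually_ge_atTop
    (‖a - b‖ + ∑ n ∈ range N, primeWeight σ n))
  refine ⟨max M₁ N, fun M hM => ?_⟩
  have hNM : N ≤ M := (le_max_right _ _).trans hM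
  have hsmall : ∀ n ∈ Ico N M, 0 ≤ primeWeight σ n ∧ primeWeight σ n ≤ η := fun n hn =>
    ⟨primeWeight_nonneg σ n, le_of_pow_le_pow_left₀ two_ne_zero hη0.le
      ((single_le_sum (fun i _ => sq_nonneg (primeWeight σ i)) hn).trans (htail M hNM))⟩
  obtain ⟨z, hz, hle⟩ := exists_phases (Ico N M) hsmall (a - b)
  have hbig : ‖a - b‖ - ∑ n ∈ Ico N M, primeWeight σ n ≤ η := by
    rw [sum_Ico_eq_sub _ hNM]
    linarith [hM₁ M ((le_max_left _ _).trans hM)]
  rw [max_eq_right hbig] at hle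
  refine ⟨fun n => if n < N then 1 else z n, fun n => ?_, ?_⟩
  · simp only
    split_ifs
    · exact norm_one
    · exact hz n
  rw [← sum_range_add_sum_Ico _ hNM,
    sum_congr rfl (g := fun n => log (1 - (1 : ℂ) * primeWeight σ n)⁻¹) fun n hn => by
      simp only [mem_range.1 hn, if_true],
    sum_congr rfl (s₁ := Ico N M) (g := fun n => log (1 - z n * primeWeight σ n)⁻¹)
      fun n hn => by simp only [not_lt.2 (mem_Ico.1 hn).1, if_false], ← hb]
  have hquad : ‖∑ n ∈ Ico N M, (log (1 - z n * primeWeight σ n)⁻¹ - z n * primeWeight σ n)‖ ≤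
      η ^ 2 := by
    refine (norm_sum_le _ _).trans ((sum_le_sum fun n hn => ?_).trans (htail M hNM))
    have hn' := hsmall n hn
    have hnorm : ‖z n * (primeWeight σ n : ℂ)‖ = primeWeight σ n := by
      rw [norm_mul, hz, one_mul, Complex.norm_real, Real.norm_of_nonneg hn'.1]
    have hhalf : primeWeight σ n ≤ 1 / 2 := hn'.2.trans (hη ▸ min_le_left _ _)
    refine (Complex.norm_log_one_sub_inv_sub_self_le (by rw [hnorm]; linarith)).trans ?_
    rw [hnorm]
    have : (1 - primeWeight σ n)⁻¹ ≤ 2 := by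
      rw [inv_le_comm₀ (by linarith) two_pos]; linarith
    nlinarith [sq_nonneg (primeWeight σ n)]
  rw [sum_sub_distrib] at hquad
  obtain ⟨L, hL⟩ : ∃ L, L = ∑ n ∈ Ico N M, log (1 - z n * primeWeight σ n)⁻¹ := ⟨_, rfl⟩
  obtain ⟨Z, hZ⟩ : ∃ Z, Z = ∑ n ∈ Ico N M, z n * (primeWeight σ n : ℂ) := ⟨_, rfl⟩
  rw [← hL, ← hZ] at hquad
  rw [← hZ] at hle
  rw [← hL]
  calc ‖b + L - a‖ = ‖(L - Z) - (a - b - Z)‖ := by ring_nf
    _ ≤ η ^ 2 + η := (norm_sub_le _ _).trans (add_le_add hquad hle)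
    _ < ε := by
        have h1 : η ≤ 1 / 2 := hη ▸ min_le_left _ _
        have h2 : η ≤ ε / 4 := hη ▸ min_le_right _ _
        nlinarith

end FA.BohrCourant
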