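import Fermat.Agent.BohrCourant.MeanSquare
import Fermat.Agent.BohrCourant.Phases

/-!
# The values of `ζ (σ + it)` are dense for `1/2 < σ ≤ 1`

In the mean weighted by `‖focus‖²`, which concentrates at `p^(-it) = z p`, the product of `ζ` by
`∏_{p < M} (1 - p^(-s))` is within `∑_{n ≥ M} n^(-2σ)` of `1`; so at some large `t` both happen.
-/

set_option autoImplicit false

noncomputable section

namespace FA.BohrCourant

open Finset Filter Complex MeasureTheory
open scoped Topology Real ComplexConjugate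

variable (P : Finset ℕ)

/-- `∏ (1 - u p · p^(-σ))` at `u p = p^(-it)`. -/
def invEuler (σ t : ℝ) : ℂ := ∏ i : P, (1 - lineCoeff σ i * dmono i t)

theorem norm_lineCoeff_le {σ : ℝ} (hσ : 0 ≤ σ) {p : ℕ} (hp : p.Prime) :
    ‖lineCoeff σ p‖ ≤ (2 : ℝ) ^ (-σ) := by
  rw [lineCoeff, Complex.norm_real, Real.norm_of_nonneg (by positivity)]
  exact Real.rpow_le_rpow_of_nonpos two_pos (by exact_mod_cast hp.two_le) (by linarith)

theorem continuous_invEuler (hP : ∀ p ∈ P, p.Prime) (σ : ℝ) : Continuous (invEuler P σ) :=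
  continuous_finsetProd _ fun i _ =>
    continuous_const.sub (continuous_const.mul (continuous_dmono (hP i i.2).pos))

/-- The powers `(r u) ^ e`. -/
def geomCoeff (σ : ℝ) (i : P) (e : ℕ) : ℂ := lineCoeff σ i ^ e

/-- The truncated series of `ζ`. -/
def smoothApprox (L y : ℕ) : Finset ℕ :=
  ((expBox P L) ×ˢ roughSet P y).image fun x => smoothNum P x.1 * x.2

theorem lineSum_smoothApprox (hP : ∀ p ∈ P, p.Prime) (σ : ℝ) (L y : ℕ) (t : ℝ) :
    lineSum σ (smoothApprox P L y) t =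
      localProd P L (geomCoeff P σ) t * dpoly (roughSet P y) id (lineCoeff σ) t := by
  classical
  rw [localProd_mul_dpoly, lineSum, dpoly, dpoly, smoothApprox,
    sum_image (injOn_smoothNum_mul P hP subset_rfl)]
  refine sum_congr rfl fun x _ => ?_
  simp only [id_eq, geomCoeff, lineCoeff, smoothNum, ← Complex.ofReal_pow, ← Complex.ofReal_prod,
    ← Complex.ofReal_mul]
  congr 2
  rw [Nat.cast_mul, Real.mul_rpow (Nat.cast_nonneg _) (Nat.cast_nonneg _), Nat.cast_prod,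
    ← Real.finsetProd_rpow _ _ fun i _ => Nat.cast_nonneg _]
  congr 1
  refine prod_congr rfl fun i _ => ?_
  rw [Nat.cast_pow, ← Real.rpow_natCast ((i : ℕ) : ℝ), ← Real.rpow_mul (Nat.cast_nonneg _),
    ← Real.rpow_natCast (((i : ℕ) : ℝ) ^ (-σ)), ← Real.rpow_mul (Nat.cast_nonneg _), mul_comm]

theorem smoothApprox_pos (hP : ∀ p ∈ P, p.Prime) (L y : ℕ) :
    ∀ n ∈ smoothApprox P L y, 0 < n := fun n hn => by
  obtain ⟨x, hx, rfl⟩ := mem_image.1 hn
  exact Nat.mul_pos (smoothNum_pos P hP _) ((mem_roughSet P).1 (mem_product.1 hx).2).1.1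

theorem Icc_subset_smoothApprox (hP : ∀ p ∈ P, p.Prime) {L y : ℕ} (hL : y ≤ L) :
    Icc 1 y ⊆ smoothApprox P L y := by
  classical
  intro n hn
  rw [mem_Icc] at hn
  have hn0 : n ≠ 0 := by omega
  obtain ⟨f, hf⟩ : ∃ f : P → ℕ, f = fun i : P => n.factorization i := ⟨_, rfl⟩
  have hdvd : smoothNum P f ∣ n := by
    rw [← Nat.factorization_le_iff_dvd (smoothNum_pos P hP f).ne' hn0]
    intro q
    by_cases hq : q ∈ P
    · exact le_of_eq ((factorization_smoothNum P hP f ⟨q, hq⟩).trans (by rw [hf]))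
    · rw [smoothNum, Nat.factorization_prod fun (i : P) _ => (pow_pos (hP i i.2).pos _).ne',
        Finsupp.finsetSum_apply, sum_eq_zero fun i _ => ?_]
      · exact Nat.zero_le _
      · rw [(hP i i.2).factorization_pow]
        exact Finsupp.single_eq_of_ne fun (h : q = i) => hq (h ▸ i.2)
  obtain ⟨m, hm⟩ := hdvd
  have hm0 : m ≠ 0 := fun h => hn0 (by rw [hm, h, mul_zero])
  refine mem_image.2 ⟨(f, m), mem_product.2 ⟨Fintype.mem_piFinset.2 fun i => ?_,
    (mem_roughSet P).2 ⟨⟨Nat.one_le_iff_ne_zero.2 hm0, ?_⟩, fun p hp hpm => ?_⟩⟩, hm.symm⟩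
  · rw [mem_range, hf]
    have := Nat.factorization_lt (i : ℕ) hn0
    simp only
    omega
  · exact le_trans (hm ▸ Nat.le_mul_of_pos_left m (smoothNum_pos P hP f)) hn.2
  · have h1 : n.factorization p = f ⟨p, hp⟩ + m.factorization p := by
      conv_lhs => rw [hm, Nat.factorization_mul (smoothNum_pos P hP f).ne' hm0, Finsupp.add_apply,
        factorization_smoothNum P hP f ⟨p, hp⟩]
    have h2 : 0 < m.factorization p := (hP p hp).factorization_pos_of_dvd hm0 hpm
    rw [hf] at h1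
    simp only at h1
    omega

/-- The finite factor left by the truncation. -/
def geomDefect (σ : ℝ) (L : ℕ) (t : ℝ) : ℂ :=
  ∏ i : P, (1 - (lineCoeff σ i * dmono i t) ^ (L + 1))

theorem invEuler_mul_localProd (σ : ℝ) (L : ℕ) (t : ℝ) :
    invEuler P σ t * localProd P L (geomCoeff P σ) t = geomDefect P σ L t := by
  rw [invEuler, localProd, geomDefect, ← prod_mul_distrib]
  refine prod_congr rfl fun i _ => ?_
  simp only [geomCoeff, ← mul_pow]
  exact mul_neg_geom_sum _ _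

theorem norm_geomDefect_sub_one_le (hP : ∀ p ∈ P, p.Prime) {σ : ℝ} (hσ : 0 ≤ σ) (L : ℕ) (t : ℝ) :
    ‖geomDefect P σ L t - 1‖ ≤ Real.exp (P.card * ((2 : ℝ) ^ (-σ)) ^ (L + 1)) - 1 := by
  refine le_trans (le_of_eq ?_) ((norm_prod_one_add_sub_one_le univ
    fun i : P => -(lineCoeff σ i * dmono i t) ^ (L + 1)).trans ?_)
  · simp only [geomDefect, sub_eq_add_neg]
  · refine sub_le_sub_right (Real.exp_le_exp.2 ?_) 1
    rw [← Fintype.card_coe, ← card_univ, ← nsmul_eq_mul]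
    refine sum_le_card_nsmul _ _ _ fun i _ => ?_
    rw [norm_neg, norm_pow, norm_mul, norm_dmono (hP i i.2).pos, mul_one]
    exact pow_le_pow_left₀ (norm_nonneg _) (norm_lineCoeff_le hσ (hP i i.2)) _

/-- The coefficients of the weight. -/
def focusCoeff (z : ℕ → ℂ) (i : P) (e : ℕ) : ℂ := conj (z i) ^ e

/-- The weight: `∏ p ∑_{e ≤ K} (p^(-it) / z p) ^ e`. -/
def focus (K : ℕ) (z : ℕ → ℂ) (t : ℝ) : ℂ := localProd P K (focusCoeff P z) t

theorem norm_focus_le (hP : ∀ p ∈ P, p.Prime) {z : ℕ → ℂ} (hz : ∀ n, ‖z n‖ = 1) (K : ℕ) (t : ℝ) :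
    ‖focus P K z t‖ ≤ ((K : ℝ) + 1) ^ P.card := by
  rw [focus, localProd, norm_prod, ← Fintype.card_coe, ← card_univ, ← prod_const]
  refine prod_le_prod (fun i _ => norm_nonneg _) fun i _ => ?_
  refine (norm_sum_le _ _).trans (le_of_eq ?_)
  simp [focusCoeff, norm_dmono (hP i i.2).pos, hz]

theorem sum_focusCoeff_sq {z : ℕ → ℂ} (hz : ∀ n, ‖z n‖ = 1) (K : ℕ) (i : P) :
    ∑ e ∈ range (K + 1), ‖focusCoeff P z i e‖ ^ 2 = (K : ℝ) + 1 := by
  simp [focusCoeff, hz]

theorem tendsto_focus_sq (hP : ∀ p ∈ P, p.Prime) {z : ℕ → ℂ} (hz : ∀ n, ‖z n‖ = 1) (K : ℕ) :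
    Tendsto (fun T : ℝ => (∫ t in (2 : ℝ)..T, ‖focus P K z t‖ ^ 2) / T) atTop
      (𝓝 (((K : ℝ) + 1) ^ P.card)) := by
  have h := tendsto_localProd_sq_one P hP K (focusCoeff P z)
  simp only [sum_focusCoeff_sq P hz, prod_const, card_univ, Fintype.card_coe] at h
  exact h

/-- The weight concentrates at `z`. -/
theorem tendsto_focus_dev (hP : ∀ p ∈ P, p.Prime) {z : ℕ → ℂ} (hz : ∀ n, ‖z n‖ = 1) (K : ℕ)
    (j : P) : Tendsto (fun T : ℝ => (∫ t in (2 : ℝ)..T,
      ‖focus P K z t * (1 - conj (z j) * dmono j t)‖ ^ 2) / T) atTop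
      (𝓝 (2 * ((K : ℝ) + 1) ^ (P.card - 1))) := by
  classical
  obtain ⟨c, hc⟩ : ∃ c : P → ℕ → ℂ, c = fun i e =>
      if i = j then (if e = 0 then 1 else if e = K + 1 then -conj (z j) ^ (K + 1) else 0)
      else if e ≤ K then focusCoeff P z i e else 0 := ⟨_, rfl⟩
  have hfac : ∀ t (i : P), ∑ e ∈ range (K + 1 + 1), c i e * dmono i t ^ e =
      (∑ e ∈ range (K + 1), focusCoeff P z i e * dmono i t ^ e) *
        if i = j then 1 - conj (z j) * dmono j t else 1 := by
    intro t i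
    rw [hc]
    simp only
    split_ifs with hij
    · subst hij
      simp only [focusCoeff, ← mul_pow]
      rw [geom_sum_mul_neg, sum_range_succ, sum_eq_single_of_mem 0 (mem_range.2 (by omega))
        fun e he h0 => by rw [mem_range] at he; simp [h0, he.ne]]
      simp
      ring
    · rw [mul_one, sum_range_succ _ (K + 1), if_neg (by omega), zero_mul, add_zero]
      exact sum_congr rfl fun e he => by rw [mem_range] at he; rw [if_pos (by omega)]
  have hnorm : ∀ i : P, ∑ e ∈ range (K + 1 + 1), ‖c i e‖ ^ 2 =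
      if i = j then 2 else (K : ℝ) + 1 := by
    intro i
    rw [hc]
    simp only
    split_ifs with hij
    · rw [sum_range_succ, sum_eq_single_of_mem 0 (mem_range.2 (by omega))
        fun e he h0 => by rw [mem_range] at he; simp [h0, he.ne]]
      simp [hz]
      norm_num
    · rw [sum_range_succ _ (K + 1), if_neg (by omega), norm_zero, zero_pow two_ne_zero, add_zero,
        ← sum_focusCoeff_sq P hz K i]
      exact sum_congr rfl fun e he => by rw [mem_range] at he; rw [if_pos (by omega)]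
  have heq : ∀ t, localProd P (K + 1) c t = focus P K z t * (1 - conj (z j) * dmono j t) := by
    intro t
    rw [localProd, focus, localProd]
    simp only [hfac, prod_mul_distrib, prod_ite_eq', mem_univ, if_true]
  have h := tendsto_localProd_sq_one P hP (K + 1) c
  simp only [hnorm, heq, prod_ite, prod_const] at h
  rwa [show (univ.filter fun i : P => i = j) = {j} by ext i; simp, card_singleton, pow_one,
    show (univ.filter fun i : P => ¬ i = j) = univ.erase j by ext i; simp,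
    card_erase_of_mem (mem_univ j), card_univ, Fintype.card_coe] at h

theorem intervalIntegrable_zetaDev (hP : ∀ p ∈ P, p.Prime) (σ : ℝ) (z : ℕ → ℂ) (K : ℕ)
    {T : ℝ} (hT : 2 ≤ T) : IntervalIntegrable (fun t =>
      ‖focus P K z t * (riemannZeta (σ + t * I) * invEuler P σ t - 1)‖ ^ 2) volume 2 T :=
  (((continuous_localProd P hP K _).continuousOn.mul
    (((continuousOn_zeta_line σ hT).mul (continuous_invEuler P hP σ).continuousOn).sub
      continuousOn_const)).norm.pow 2).intervalIntegrable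

/-- **The weighted mean of `ζ ∏ (1 - p^(-s)) - 1`**, uniformly to the right of `σ₀` and in the
phases. -/
theorem eventually_zetaDev_le_uniform (hP : ∀ p ∈ P, p.Prime) {σ₀ : ℝ} (hσ₀ : 1 / 2 < σ₀)
    (K : ℕ) {M : ℕ} (hM : ∀ n, 2 ≤ n → n ≤ M → ∃ p ∈ P, p ∣ n) {η : ℝ} (hη : 0 < η) :
    ∀ᶠ T : ℝ in atTop, ∀ (σ : ℝ) (z : ℕ → ℂ), σ₀ ≤ σ → σ ≤ 4 → (∀ n, ‖z n‖ = 1) →
      (∫ t in (2 : ℝ)..T,
        ‖focus P K z t * (riemannZeta (σ + t * I) * invEuler P σ t - 1)‖ ^ 2) / T ≤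
          3 * ((K : ℝ) + 1) ^ P.card * tailSum σ₀ M + η := by
  classical
  obtain ⟨F, hF⟩ : ∃ F, F = ((K : ℝ) + 1) ^ P.card := ⟨_, rfl⟩
  have hF0 : 0 < F := hF ▸ by positivity
  obtain ⟨G, hG⟩ : ∃ G, G = (2 : ℝ) ^ P.card := ⟨_, rfl⟩
  have hG0 : 0 < G := hG ▸ by positivity
  have hr1 : (2 : ℝ) ^ (-σ₀) < 1 := Real.rpow_lt_one_of_one_lt_of_neg one_lt_two (by linarith)
  obtain ⟨Z, hZ⟩ : ∃ Z, Z = ∑' n : ℕ, (n : ℝ) ^ (-(2 * σ₀)) := ⟨_, rfl⟩
  have hZ0 : 0 ≤ Z := hZ ▸ tsum_nonneg fun n => by positivity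
  -- choose the truncation
  obtain ⟨y, hy⟩ := eventually_atTop.1 (((tendsto_tailSum σ₀).eventually
    (eventually_le_nhds (show (0 : ℝ) < η / (24 * F ^ 2 * G ^ 2) by positivity))).and
      (eventually_ge_atTop 1))
  have hdef : Tendsto (fun L : ℕ => 3 * (F ^ 2 * (Z + 1) *
      (Real.exp (P.card * ((2 : ℝ) ^ (-σ₀)) ^ (L + 1)) - 1) ^ 2)) atTop (𝓝 0) := by
    have h := (((Real.continuous_exp.tendsto _).comp
      (((tendsto_pow_atTop_nhds_zero_of_lt_one (by positivity) hr1).comp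
        (tendsto_add_atTop_nat 1)).const_mul (P.card : ℝ))).sub_const 1).pow 2
    have h' := (h.const_mul (F ^ 2 * (Z + 1))).const_mul 3
    simpa using h'
  obtain ⟨L, hL⟩ := eventually_atTop.1
    ((hdef.eventually (eventually_le_nhds (show (0 : ℝ) < η / 4 by positivity))).and
      (eventually_ge_atTop y))
  obtain ⟨hL1, hLy⟩ := hL L le_rfl
  obtain ⟨θ, hθ⟩ : ∃ θ, θ = Real.exp (P.card * ((2 : ℝ) ^ (-σ₀)) ^ (L + 1)) - 1 := ⟨_, rfl⟩
  rw [← hθ] at hL1
  obtain ⟨U, hU⟩ : ∃ U, U = smoothApprox P L y := ⟨_, rfl⟩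
  have happrox := eventually_meanSquare_sub_le_uniform hσ₀
    (U := U) (hU ▸ smoothApprox_pos P hP L y) (y := y)
    (hU ▸ Icc_subset_smoothApprox P hP hLy)
    (show 0 < η / (12 * F ^ 2 * G ^ 2) by positivity)
  have hRms := eventually_dpoly_sq_le (s := roughSet P y) (m := id)
    (fun n hn => ((mem_roughSet P).1 hn).1.1) Function.injective_id.injOn
    (show 0 < 1 / (Z + 1) by positivity)
  have hFR := eventually_localProd_sq_le P hP K (y := y) (R := (roughSet P y).erase 1)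
    (erase_subset _ _) (show 0 < η / (12 * (F * (tailSum σ₀ M + 1))) by
      have := tailSum_nonneg σ₀ M
      positivity)
  filter_upwards [happrox, hRms, hFR, eventually_ge_atTop (2 : ℝ)] with T hA hB hC hT σ z hσ hσ4 hz
  rw [← hF]
  replace hA := hA σ hσ hσ4
  obtain ⟨R, hR⟩ : ∃ R : ℝ → ℂ, R = fun t => dpoly (roughSet P y) id (lineCoeff σ) t := ⟨_, rfl⟩
  obtain ⟨R₂, hR₂⟩ : ∃ R₂ : ℝ → ℂ,
      R₂ = fun t => dpoly ((roughSet P y).erase 1) id (lineCoeff σ) t := ⟨_, rfl⟩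
  have hRc : Continuous R := hR ▸ continuous_dpoly (fun n hn => ((mem_roughSet P).1 hn).1.1) _
  have hR₂c : Continuous R₂ :=
    hR₂ ▸ continuous_dpoly (fun n hn => ((mem_roughSet P).1 (mem_erase.1 hn).2).1.1) _
  have hsumR : ∑ n ∈ roughSet P y, ‖lineCoeff σ n‖ ^ 2 ≤ Z := by
    refine (sum_le_sum fun n hn =>
      norm_lineCoeff_anti hσ ((mem_roughSet P).1 hn).1.1).trans ?_
    simp only [norm_sq_lineCoeff]
    rw [hZ]
    exact (FA.BohrLandau.summable_neg_two_mul hσ₀).sum_le_tsum _ fun n _ => by positivity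
  replace hB : (∫ t in (2 : ℝ)..T, ‖dpoly (roughSet P y) id (lineCoeff σ) t‖ ^ 2) / T ≤ Z + 1 := by
    refine (hB (lineCoeff σ)).trans ((mul_le_mul_of_nonneg_left hsumR (by positivity)).trans ?_)
    have : 1 / (Z + 1) * Z ≤ 1 := by
      rw [div_mul_eq_mul_div, div_le_one (by linarith)]; linarith
    linarith
  replace hC : (∫ t in (2 : ℝ)..T, ‖localProd P K (focusCoeff P z) t *
      dpoly ((roughSet P y).erase 1) id (lineCoeff σ) t‖ ^ 2) / T ≤
      F * tailSum σ₀ M + η / 12 := by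
    have h := sum_le_tailSum_of_le hσ₀ hσ (s := (roughSet P y).erase 1) (y := M) fun n hn => by
      obtain ⟨hn1, hn2⟩ := mem_erase.1 hn
      obtain ⟨⟨h1, -⟩, h2⟩ := (mem_roughSet P).1 hn2
      by_contra hle
      obtain ⟨p, hp, hpn⟩ := hM n (by omega) (not_lt.1 hle)
      exact h2 p hp hpn
    refine (hC _ _).trans ?_
    simp only [sum_focusCoeff_sq P hz, prod_const, card_univ, Fintype.card_coe, ← hF]
    have h0 := tailSum_nonneg σ₀ M
    refine (mul_le_mul_of_nonneg_left (mul_le_mul_of_nonneg_left h hF0.le) (by positivity)).trans ?_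
    have : η / (12 * (F * (tailSum σ₀ M + 1))) * (F * tailSum σ₀ M) ≤ η / 12 := by
      rw [div_mul_eq_mul_div, div_le_div_iff₀ (by positivity) (by norm_num)]
      nlinarith [mul_pos hη hF0]
    linarith
  obtain ⟨D, hD⟩ : ∃ D : ℝ → ℂ, D = fun t : ℝ => riemannZeta (σ + t * I) - lineSum σ U t := ⟨_, rfl⟩
  have hDc : ContinuousOn D (Set.uIcc 2 T) := hD ▸ (continuousOn_zeta_line σ hT).sub
    (continuous_lineSum (hU ▸ smoothApprox_pos P hP L y)).continuousOn
  have hpt : ∀ t : ℝ, ‖focus P K z t * (riemannZeta (σ + t * I) * invEuler P σ t - 1)‖ ^ 2 ≤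
      3 * (F ^ 2 * G ^ 2) * ‖D t‖ ^ 2 + 3 * (F ^ 2 * θ ^ 2) * ‖R t‖ ^ 2 +
        3 * ‖focus P K z t * R₂ t‖ ^ 2 := by
    intro t
    have hfoc : ‖focus P K z t‖ ≤ F := hF ▸ norm_focus_le P hP hz K t
    have hinv : ‖invEuler P σ t‖ ≤ G := by
      rw [invEuler, hG, norm_prod, ← Fintype.card_coe, ← card_univ, ← prod_const]
      refine prod_le_prod (fun i _ => norm_nonneg _) fun i _ => (norm_sub_le _ _).trans ?_
      rw [norm_one, norm_mul, norm_dmono (hP i i.2).pos, mul_one]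
      linarith [norm_lineCoeff_le (show 0 ≤ σ by linarith) (hP i i.2),
        Real.rpow_lt_one_of_one_lt_of_neg one_lt_two (show -σ < 0 by linarith)]
    have hgd : ‖geomDefect P σ L t - 1‖ ≤ θ := by
      refine (norm_geomDefect_sub_one_le P hP (by linarith) L t).trans (hθ ▸ ?_)
      gcongr
      norm_num
    have hone : R t = R₂ t + 1 := by
      have h0 : 1 ≤ y := (hy y le_rfl).2
      rw [hR, hR₂]
      simp only [dpoly]
      rw [← sum_erase_add _ _ (show (1 : ℕ) ∈ roughSet P y from (mem_roughSet P).2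
        ⟨⟨le_rfl, h0⟩, fun p hp hd => (hP p hp).ne_one (Nat.dvd_one.1 hd)⟩)]
      simp [lineCoeff, dmono_one]
    have e : focus P K z t * (riemannZeta (σ + t * I) * invEuler P σ t - 1) =
        focus P K z t * invEuler P σ t * D t + focus P K z t * (geomDefect P σ L t - 1) * R t +
          focus P K z t * R₂ t := by
      rw [hD, hU]
      simp only
      rw [lineSum_smoothApprox P hP σ L y t, ← invEuler_mul_localProd P σ L t]
      rw [hR] at hone ⊢
      simp only at hone ⊢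
      linear_combination (focus P K z t) * hone
    rw [e]
    have t1 : ‖focus P K z t * invEuler P σ t * D t‖ ≤ F * G * ‖D t‖ := by
      rw [norm_mul, norm_mul]; gcongr
    have t2 : ‖focus P K z t * (geomDefect P σ L t - 1) * R t‖ ≤ F * θ * ‖R t‖ := by
      rw [norm_mul, norm_mul]; gcongr
    refine (pow_le_pow_left₀ (norm_nonneg _) (norm_add₃_le.trans
      (add_le_add (add_le_add t1 t2) le_rfl)) 2).trans ?_
    nlinarith [sq_nonneg (F * G * ‖D t‖ - F * θ * ‖R t‖),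
      sq_nonneg (F * G * ‖D t‖ - ‖focus P K z t * R₂ t‖),
      sq_nonneg (F * θ * ‖R t‖ - ‖focus P K z t * R₂ t‖)]
  have i1 : IntervalIntegrable (fun t => ‖D t‖ ^ 2) volume 2 T :=
    (hDc.norm.pow 2).intervalIntegrable
  have i2 : IntervalIntegrable (fun t => ‖R t‖ ^ 2) volume 2 T :=
    (hRc.norm.pow 2).intervalIntegrable _ _
  have i3 : IntervalIntegrable (fun t => ‖focus P K z t * R₂ t‖ ^ 2) volume 2 T :=
    (((continuous_localProd P hP K _).mul hR₂c).norm.pow 2).intervalIntegrable _ _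
  rw [div_le_iff₀ (by linarith)]
  refine (intervalIntegral.integral_mono_on hT (intervalIntegrable_zetaDev P hP σ z K hT)
    (((i1.const_mul _).add (i2.const_mul _)).add (i3.const_mul _)) fun t _ => hpt t).trans ?_
  rw [intervalIntegral.integral_add ((i1.const_mul _).add (i2.const_mul _)) (i3.const_mul _),
    intervalIntegral.integral_add (i1.const_mul _) (i2.const_mul _),
    intervalIntegral.integral_const_mul, intervalIntegral.integral_const_mul,
    intervalIntegral.integral_const_mul]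
  rw [div_le_iff₀ (by linarith)] at hA hB hC
  have b1 : 3 * (F ^ 2 * G ^ 2) * (∫ t in (2 : ℝ)..T, ‖D t‖ ^ 2) ≤ η / 2 * T := by
    rw [hD]
    refine (mul_le_mul_of_nonneg_left hA (by positivity)).trans ?_
    have h1 := (hy y le_rfl).1
    rw [le_div_iff₀ (by positivity)] at h1
    have h2 : η / (12 * F ^ 2 * G ^ 2) * (12 * (F ^ 2 * G ^ 2)) = η := by field_simp
    nlinarith [mul_le_mul_of_nonneg_right h1 (show 0 ≤ T by linarith)]
  have b2 : 3 * (F ^ 2 * θ ^ 2) * (∫ t in (2 : ℝ)..T, ‖R t‖ ^ 2) ≤ η / 4 * T := by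
    rw [hR]
    refine (mul_le_mul_of_nonneg_left hB (by positivity)).trans ?_
    nlinarith [mul_le_mul_of_nonneg_right hL1 (show 0 ≤ T by linarith)]
  have b3 : 3 * (∫ t in (2 : ℝ)..T, ‖focus P K z t * R₂ t‖ ^ 2) ≤
      (3 * F * tailSum σ₀ M + η / 4) * T := by
    rw [hR₂]
    unfold focus
    linarith
  linarith

/-- The weighted mean on one line. -/
theorem eventually_zetaDev_le (hP : ∀ p ∈ P, p.Prime) {σ : ℝ} (hσ : 1 / 2 < σ) (hσ4 : σ ≤ 4)
    {z : ℕ → ℂ} (hz : ∀ n, ‖z n‖ = 1) (K : ℕ) {M : ℕ}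
    (hM : ∀ n, 2 ≤ n → n ≤ M → ∃ p ∈ P, p ∣ n) {η : ℝ} (hη : 0 < η) :
    ∀ᶠ T : ℝ in atTop, (∫ t in (2 : ℝ)..T,
      ‖focus P K z t * (riemannZeta (σ + t * I) * invEuler P σ t - 1)‖ ^ 2) / T ≤
        3 * ((K : ℝ) + 1) ^ P.card * tailSum σ M + η :=
  (eventually_zetaDev_le_uniform P hP hσ K hM hη).mono fun _ h => h σ z le_rfl hσ4 hz

/-- **The theorem of Bohr and Courant.** -/
theorem exists_zeta_near {σ : ℝ} (hσ : 1 / 2 < σ) (hσ1 : σ ≤ 1) {w : ℂ} (hw : w ≠ 0) {ε : ℝ}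
    (hε : 0 < ε) (T₀ : ℝ) : ∃ t : ℝ, T₀ ≤ t ∧ ‖riemannZeta (σ + t * I) - w‖ < ε := by
  classical
  -- the accuracy
  obtain ⟨ε₁, hε₁0, hε₁⟩ : ∃ ε₁, 0 < ε₁ ∧
      ∀ a : ℂ, ‖a - Complex.log w‖ < ε₁ → ‖cexp a - w‖ < ε / 2 := by
    obtain ⟨d, hd, h⟩ := Metric.continuousAt_iff.1
      (Complex.continuous_exp.continuousAt (x := Complex.log w)) (ε / 2) (half_pos hε)
    refine ⟨d, hd, fun a ha => ?_⟩
    have := h (x := a) (by rwa [dist_eq_norm])
    rwa [dist_eq_norm, Complex.exp_log hw] at this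
  obtain ⟨η₁, hη₁0, hη₁w⟩ : ∃ η₁, 0 < η₁ ∧ η₁ * (‖w‖ + ε) ≤ ε / 4 :=
    ⟨ε / 4 / (‖w‖ + ε), by positivity, (div_mul_cancel₀ _ (by positivity)).le⟩
  obtain ⟨M₀, hM₀⟩ := exists_eulerPhases hσ hσ1 (Complex.log w) hε₁0
  obtain ⟨M₁, hM₁⟩ := eventually_atTop.1 ((tendsto_tailSum σ).eventually
    (eventually_le_nhds (show (0 : ℝ) < η₁ ^ 2 / 16 by positivity)))
  obtain ⟨M, hMd⟩ : ∃ M, M = max M₀ (M₁ + 1) := ⟨_, rfl⟩
  obtain ⟨z, hz, hza⟩ := hM₀ M (hMd ▸ le_max_left _ _)
  obtain ⟨P, hPd⟩ : ∃ P, P = (range M).filter Nat.Prime := ⟨_, rfl⟩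
  have hP : ∀ p ∈ P, p.Prime := fun p hp => (mem_filter.1 (hPd ▸ hp)).2
  have hcover : ∀ n, 2 ≤ n → n ≤ M₁ → ∃ p ∈ P, p ∣ n := fun n h2 hn => by
    refine ⟨n.minFac, hPd ▸ mem_filter.2 ⟨mem_range.2 ?_, Nat.minFac_prime (by omega)⟩,
      Nat.minFac_dvd n⟩
    have := Nat.minFac_le (show 0 < n by omega)
    have := le_max_right M₀ (M₁ + 1)
    omega
  -- the value at the phases
  obtain ⟨Q₀, hQ₀⟩ : ∃ Q₀ : ℂ, Q₀ = ∏ i : P, (1 - lineCoeff σ i * z i) := ⟨_, rfl⟩
  have hne : ∀ i : P, 1 - lineCoeff σ i * z i ≠ 0 := fun i h => by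
    have h1 : ‖lineCoeff σ i * z i‖ = 1 := by rw [← sub_eq_zero.1 h, norm_one]
    rw [norm_mul, hz, mul_one] at h1
    have := norm_lineCoeff_le (show 0 ≤ σ by linarith) (hP i i.2)
    linarith [Real.rpow_lt_one_of_one_lt_of_neg one_lt_two (show -σ < 0 by linarith)]
  have hQ0ne : Q₀ ≠ 0 := hQ₀ ▸ prod_ne_zero_iff.2 fun i _ => hne i
  have hsum : ∑ n ∈ range M, log (1 - z n * primeWeight σ n)⁻¹ =
      ∑ i : P, log (1 - lineCoeff σ i * z i)⁻¹ := by
    rw [sum_coe_sort P fun n => log (1 - lineCoeff σ n * z n)⁻¹, hPd, sum_filter]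
    refine sum_congr rfl fun n _ => ?_
    rw [primeWeight, lineCoeff]
    split_ifs
    · rw [mul_comm]
    · simp
  have hval : ‖Q₀⁻¹ - w‖ < ε / 2 := by
    have h := hε₁ _ (hsum ▸ hza)
    rwa [Complex.exp_sum, prod_congr rfl fun i _ => Complex.exp_log (inv_ne_zero (hne i)),
      prod_inv_distrib, ← hQ₀] at h
  obtain ⟨d, hd0, hd⟩ : ∃ d, 0 < d ∧ ∀ u : P → ℂ, (∀ i, ‖u i - z i‖ < d) →
      ‖(∏ i : P, (1 - lineCoeff σ i * u i))⁻¹ - Q₀⁻¹‖ < ε / 4 ∧
        ∏ i : P, (1 - lineCoeff σ i * u i) ≠ 0 := by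
    obtain ⟨f, hf⟩ : ∃ f : (P → ℂ) → ℂ, f = fun u => ∏ i : P, (1 - lineCoeff σ i * u i) :=
      ⟨_, rfl⟩
    have hfc : Continuous f := hf ▸ continuous_finsetProd _ fun i _ => by fun_prop
    have hfz : f (fun i => z i) = Q₀ := by rw [hf, hQ₀]
    have hc : ContinuousAt (fun u => (f u)⁻¹) (fun i => z i) :=
      hfc.continuousAt.inv₀ (by rw [hfz]; exact hQ0ne)
    obtain ⟨d, hd, hd'⟩ := Metric.eventually_nhds_iff.1
      ((hc.eventually (Metric.ball_mem_nhds _ (show 0 < ε / 4 by positivity))).and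
        (hfc.continuousAt.eventually_ne (by rw [hfz]; exact hQ0ne)))
    refine ⟨d, hd, fun u hu => ?_⟩
    obtain ⟨h1, h2⟩ := hd' (show dist u (fun i => z i) < d from
      (dist_pi_lt_iff hd).2 fun i => by rw [dist_eq_norm]; exact hu i)
    simp only [hfz, dist_eq_norm] at h1
    rw [hf] at h1 h2
    exact ⟨h1, h2⟩
  obtain ⟨K, hK⟩ := exists_nat_ge (32 * (P.card : ℝ) / d ^ 2)
  obtain ⟨F, hF⟩ : ∃ F, F = ((K : ℝ) + 1) ^ P.card := ⟨_, rfl⟩
  have hF0 : 0 < F := hF ▸ by positivity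
  -- a good height
  have hexists : ∃ t, max T₀ 2 ≤ t ∧ ‖riemannZeta (σ + t * I) * invEuler P σ t - 1‖ < η₁ ∧
      ∀ i : P, ‖dmono i t - z i‖ < d := by
    by_contra hcon
    push Not at hcon
    obtain ⟨B, hB⟩ : ∃ B, B = max T₀ 2 := ⟨_, rfl⟩
    rw [← hB] at hcon
    have hB2 : 2 ≤ B := hB ▸ le_max_right _ _
    obtain ⟨H, hH⟩ : ∃ H : ℝ → ℝ, H = fun t =>
        ‖focus P K z t * (riemannZeta (σ + t * I) * invEuler P σ t - 1)‖ ^ 2 / η₁ ^ 2 +
          ∑ i : P, ‖focus P K z t * (1 - conj (z i) * dmono i t)‖ ^ 2 / d ^ 2 := ⟨_, rfl⟩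
    have hH0 : ∀ t, 0 ≤ H t := fun t => by
      rw [hH]
      exact add_nonneg (by positivity) (sum_nonneg fun i _ => by positivity)
    have hge : ∀ t, B ≤ t → ‖focus P K z t‖ ^ 2 ≤ H t := by
      intro t ht
      rw [hH]
      simp only [norm_mul, mul_pow, mul_div_assoc, ← mul_sum, ← mul_add]
      refine le_mul_of_one_le_right (sq_nonneg _) ?_
      by_cases hbad : η₁ ≤ ‖riemannZeta (σ + t * I) * invEuler P σ t - 1‖
      · refine le_add_of_le_of_nonneg ?_ (sum_nonneg fun i _ => by positivity)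
        rw [one_le_div (by positivity)]
        exact pow_le_pow_left₀ hη₁0.le hbad 2
      · obtain ⟨i, hi⟩ := hcon t ht (not_le.1 hbad)
        refine le_add_of_nonneg_of_le (by positivity) (le_trans ?_
          (single_le_sum (fun j _ => by positivity) (mem_univ i)))
        have e : ‖1 - conj (z i) * dmono i t‖ = ‖dmono i t - z i‖ := by
          calc _ = ‖z i‖ * ‖1 - conj (z i) * dmono i t‖ := by rw [hz, one_mul]
            _ = ‖z i - z i * conj (z i) * dmono i t‖ := by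
              rw [← norm_mul]; ring_nf
            _ = _ := by
              rw [Complex.mul_conj', hz, norm_sub_rev]
              simp
        rw [one_le_div (by positivity), e]
        exact pow_le_pow_left₀ hd0.le hi 2
    have hfc : Continuous fun t => ‖focus P K z t‖ ^ 2 :=
      (continuous_localProd P hP K _).norm.pow 2
    obtain ⟨C, hC⟩ : ∃ C, C = ∫ t in (2 : ℝ)..B, ‖focus P K z t‖ ^ 2 := ⟨_, rfl⟩
    have hC0 : Tendsto (fun T : ℝ => C / T) atTop (𝓝 0) :=
      tendsto_const_nhds.div_atTop tendsto_id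
    have hdev : ∀ᶠ T : ℝ in atTop, ∀ i : P, (∫ t in (2 : ℝ)..T,
        ‖focus P K z t * (1 - conj (z i) * dmono i t)‖ ^ 2) / T ≤
          2 * ((K : ℝ) + 1) ^ (P.card - 1) * 2 :=
      eventually_all.2 fun i => (tendsto_focus_dev P hP hz K i).eventually
        (eventually_le_nhds (lt_mul_of_one_lt_right (by positivity) one_lt_two))
    obtain ⟨T, h1, h2, h3, h4, hTB⟩ := ((eventually_zetaDev_le P hP hσ (by linarith) hz K hcover
      (show 0 < F * η₁ ^ 2 / 16 by positivity)).and (((tendsto_focus_sq P hP hz K).eventually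
        (eventually_ge_nhds (show ((K : ℝ) + 1) ^ P.card * (7 / 8) < ((K : ℝ) + 1) ^ P.card by
          rw [← hF]; linarith))).and (hdev.and ((hC0.eventually
            (eventually_le_nhds (show (0 : ℝ) < F / 8 by positivity))).and
              (eventually_ge_atTop B))))).exists
    rw [← hF] at h1 h2
    have hT : 2 ≤ T := hB2.trans hTB
    have hT0 : 0 < T := by linarith
    have iz := (intervalIntegrable_zetaDev P hP σ z K hT).div_const (η₁ ^ 2)
    have id' : ∀ i : P, IntervalIntegrable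
        (fun t => ‖focus P K z t * (1 - conj (z i) * dmono i t)‖ ^ 2 / d ^ 2) volume 2 T :=
      fun i => ((((continuous_localProd P hP K _).mul (continuous_const.sub (continuous_const.mul
        (continuous_dmono (hP i i.2).pos)))).norm.pow 2).div_const _).intervalIntegrable _ _
    have isum : IntervalIntegrable (fun t =>
        ∑ i : P, ‖focus P K z t * (1 - conj (z i) * dmono i t)‖ ^ 2 / d ^ 2) volume 2 T :=
      (continuous_finsetSum _ fun (i : P) _ => (((continuous_localProd P hP K _).mul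
        (continuous_const.sub (continuous_const.mul (continuous_dmono (hP i i.2).pos)))).norm.pow
          2).div_const _).intervalIntegrable _ _
    have iH : IntervalIntegrable H volume 2 T := hH ▸ iz.add isum
    have hle : ∫ t in (2 : ℝ)..T, ‖focus P K z t‖ ^ 2 ≤ C + ∫ t in (2 : ℝ)..T, H t := by
      rw [← intervalIntegral.integral_add_adjacent_intervals (b := B)
        (hfc.intervalIntegrable 2 B) (hfc.intervalIntegrable B T), hC]
      refine add_le_add le_rfl ?_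
      have iBT : IntervalIntegrable H volume B T := iH.mono_set (by
        rw [Set.uIcc_of_le hTB, Set.uIcc_of_le hT]
        exact Set.Icc_subset_Icc hB2 le_rfl)
      refine (intervalIntegral.integral_mono_on hTB (hfc.intervalIntegrable _ _) iBT
        fun t ht => hge t ht.1).trans ?_
      exact intervalIntegral.integral_mono_interval hB2 hTB le_rfl
        (Eventually.of_forall hH0) iH
    have hint : ∫ t in (2 : ℝ)..T, H t ≤
        (3 * F * tailSum σ M₁ + F * η₁ ^ 2 / 16) * T / η₁ ^ 2 +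
          P.card * (4 * ((K : ℝ) + 1) ^ (P.card - 1) * T / d ^ 2) := by
      rw [hH, intervalIntegral.integral_add iz isum, intervalIntegral.integral_div,
        intervalIntegral.integral_finsetSum fun i _ => id' i]
      refine add_le_add (div_le_div_of_nonneg_right ((div_le_iff₀ hT0).1 h1) (by positivity)) ?_
      refine (sum_le_card_nsmul _ _ _ fun i _ => ?_).trans (le_of_eq (by
        rw [card_univ, Fintype.card_coe, nsmul_eq_mul]))
      rw [intervalIntegral.integral_div]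
      refine div_le_div_of_nonneg_right (((div_le_iff₀ hT0).1 (h3 i)).trans (le_of_eq ?_))
        (by positivity)
      ring
    have e1 : (3 * F * tailSum σ M₁ + F * η₁ ^ 2 / 16) * T / η₁ ^ 2 ≤ F / 4 * T := by
      rw [div_le_iff₀ (by positivity)]
      nlinarith [mul_le_mul_of_nonneg_left (hM₁ M₁ le_rfl) (mul_pos hF0 hT0).le]
    have e2 : (P.card : ℝ) * (4 * ((K : ℝ) + 1) ^ (P.card - 1) * T / d ^ 2) ≤ F / 8 * T := by
      rcases Nat.eq_zero_or_pos P.card with h0 | h0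
      · rw [h0, Nat.cast_zero, zero_mul]
        positivity
      · have hsplit : F = ((K : ℝ) + 1) ^ (P.card - 1) * ((K : ℝ) + 1) := by
          rw [hF, ← pow_succ, Nat.sub_add_cancel h0]
        rw [div_le_iff₀ (by positivity)] at hK
        rw [mul_div_assoc', div_le_iff₀ (by positivity), hsplit]
        nlinarith [mul_le_mul_of_nonneg_left hK
          (show 0 ≤ ((K : ℝ) + 1) ^ (P.card - 1) * T by positivity),
          show 0 ≤ ((K : ℝ) + 1) ^ (P.card - 1) * T * d ^ 2 by positivity]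
    rw [le_div_iff₀ hT0] at h2
    rw [div_le_iff₀ hT0] at h4
    nlinarith [mul_pos hF0 hT0]
  obtain ⟨t, ht, hζ, hu⟩ := hexists
  refine ⟨t, (le_max_left _ _).trans ht, ?_⟩
  obtain ⟨hinv, hQne⟩ := hd (fun i => dmono i t) hu
  obtain ⟨Q, hQ⟩ : ∃ Q, Q = ∏ i : P, (1 - lineCoeff σ i * dmono i t) := ⟨_, rfl⟩
  rw [← hQ] at hinv hQne
  rw [invEuler, ← hQ] at hζ
  have hQw : ‖Q⁻¹ - w‖ < 3 * ε / 4 := by
    linarith [norm_sub_le_norm_sub_add_norm_sub Q⁻¹ Q₀⁻¹ w]
  have hQn : ‖Q⁻¹‖ ≤ ‖w‖ + ε := by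
    linarith [norm_le_norm_add_norm_sub' Q⁻¹ w]
  calc ‖riemannZeta (σ + t * I) - w‖
      = ‖(riemannZeta (σ + t * I) * Q - 1) * Q⁻¹ + (Q⁻¹ - w)‖ := by
        congr 1; field_simp; ring
    _ < ε / 4 + 3 * ε / 4 := by
        refine add_lt_add_of_le_of_lt ?_ hQw |>.trans_le' (norm_add_le _ _)
        rw [norm_mul]
        exact (mul_le_mul hζ.le hQn (norm_nonneg _) hη₁0.le).trans hη₁w
    _ = ε := by ring

end FA.BohrCourant
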