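import Fermat.Agent.BohrCourant.Polynomials
import Fermat.Agent.BohrLandau.MeanSquare

/-!
# Finite sums of the series of `ζ` in mean square

For `σ > 1/2` and a finite set `U ⊇ {1, …, y}` of positive integers, the mean square of
`ζ (σ + it) - ∑_{n ∈ U} n^(-σ - it)` is at most twice `∑_{n > y} n^(-2σ)`, up to `o (1)`.
-/

set_option autoImplicit false

noncomputable section

namespace FA.BohrCourant

open Finset Filter Complex MeasureTheory
open FA.BohrLandau (vertSum vertErr dSum eSum)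
open scoped Topology Real

/-- `n ^ (-σ)` as a coefficient. -/
def lineCoeff (σ : ℝ) (n : ℕ) : ℂ := (((n : ℝ) ^ (-σ) : ℝ) : ℂ)

theorem lineTerm_eq {σ t : ℝ} {n : ℕ} (hn : 0 < n) :
    lineCoeff σ n * dmono n t = 1 / (n : ℂ) ^ ((σ : ℂ) + t * I) := by
  rw [lineCoeff, dmono, one_div, ← Complex.cpow_neg, neg_add,
    Complex.cpow_add _ _ (Nat.cast_ne_zero.2 hn.ne'), mul_comm (t : ℂ),
    Complex.ofReal_cpow (Nat.cast_nonneg n)]
  push_cast
  rfl

/-- The finite sum over `U`. -/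
def lineSum (σ : ℝ) (U : Finset ℕ) (t : ℝ) : ℂ := dpoly U id (lineCoeff σ) t

theorem vertSum_eq_lineSum (σ : ℝ) (M : ℕ) (t : ℝ) : vertSum σ M t = lineSum σ (Icc 1 M) t :=
  sum_congr rfl fun _ hn => (lineTerm_eq (mem_Icc.1 hn).1).symm

theorem norm_sq_lineCoeff (σ : ℝ) (n : ℕ) : ‖lineCoeff σ n‖ ^ 2 = (n : ℝ) ^ (-(2 * σ)) := by
  rw [lineCoeff, Complex.norm_real, Real.norm_of_nonneg (by positivity), ← Real.rpow_natCast,
    ← Real.rpow_mul (Nat.cast_nonneg n)]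
  push_cast
  ring_nf

/-- `∑_{n > y} n^(-2σ)`. -/
def tailSum (σ : ℝ) (y : ℕ) : ℝ := ∑' n : ℕ, ((n + (y + 1) : ℕ) : ℝ) ^ (-(2 * σ))

theorem tendsto_tailSum (σ : ℝ) : Tendsto (tailSum σ) atTop (𝓝 0) :=
  (tendsto_sum_nat_add fun n : ℕ => (n : ℝ) ^ (-(2 * σ))).comp (tendsto_add_atTop_nat 1)

theorem tailSum_nonneg (σ : ℝ) (y : ℕ) : 0 ≤ tailSum σ y := tsum_nonneg fun _ => by positivity

theorem sum_le_tailSum {σ : ℝ} (hσ : 1 / 2 < σ) {s : Finset ℕ} {y : ℕ} (h : ∀ n ∈ s, y < n) :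
    ∑ n ∈ s, ‖lineCoeff σ n‖ ^ 2 ≤ tailSum σ y := by
  simp only [norm_sq_lineCoeff]
  obtain ⟨s', hs'⟩ : ∃ s', s' = s.image fun n => n - (y + 1) := ⟨_, rfl⟩
  have e : ∑ n ∈ s, (n : ℝ) ^ (-(2 * σ)) = ∑ n ∈ s', ((n + (y + 1) : ℕ) : ℝ) ^ (-(2 * σ)) := by
    rw [hs', sum_image fun a ha b hb hab => by
      have := h a ha; have := h b hb; omega]
    refine sum_congr rfl fun n hn => ?_
    rw [Nat.sub_add_cancel (h n hn)]
  rw [e]
  exact ((summable_nat_add_iff (y + 1)).2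
    (FA.BohrLandau.summable_neg_two_mul hσ)).sum_le_tsum _ fun n _ => by positivity

theorem norm_lineCoeff_anti {σ₀ σ : ℝ} (h : σ₀ ≤ σ) {n : ℕ} (hn : 0 < n) :
    ‖lineCoeff σ n‖ ^ 2 ≤ ‖lineCoeff σ₀ n‖ ^ 2 := by
  rw [norm_sq_lineCoeff, norm_sq_lineCoeff]
  exact Real.rpow_le_rpow_of_exponent_le (by exact_mod_cast hn) (by linarith)

theorem sum_le_tailSum_of_le {σ₀ σ : ℝ} (hσ₀ : 1 / 2 < σ₀) (h : σ₀ ≤ σ) {s : Finset ℕ} {y : ℕ}
    (hs : ∀ n ∈ s, y < n) : ∑ n ∈ s, ‖lineCoeff σ n‖ ^ 2 ≤ tailSum σ₀ y :=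
  (sum_le_sum fun n hn => norm_lineCoeff_anti h (lt_of_le_of_lt (Nat.zero_le y) (hs n hn))).trans
    (sum_le_tailSum hσ₀ hs)

theorem eSum_anti {σ₀ σ : ℝ} (h : σ₀ ≤ σ) (M : ℕ) : eSum σ M ≤ eSum σ₀ M :=
  sum_le_sum fun _ hn => Real.rpow_le_rpow_of_exponent_le
    (by exact_mod_cast (mem_Icc.1 hn).1) (by linarith)

theorem continuous_lineSum {σ : ℝ} {U : Finset ℕ} (hU : ∀ n ∈ U, 0 < n) :
    Continuous (lineSum σ U) :=
  continuous_dpoly hU _

theorem continuousOn_zeta_line (σ : ℝ) {T : ℝ} (hT : 2 ≤ T) :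
    ContinuousOn (fun t : ℝ => riemannZeta (σ + t * I)) (Set.uIcc 2 T) := fun t ht => by
  rw [Set.uIcc_of_le hT] at ht
  exact (FA.BohrLandau.continuousAt_zeta_vert σ (by linarith [ht.1])).continuousWithinAt

/-- **The approximation in mean square**, uniformly to the right of `σ₀`. -/
theorem eventually_meanSquare_sub_le_uniform {σ₀ : ℝ} (hσ₀ : 1 / 2 < σ₀) {U : Finset ℕ}
    (hU : ∀ n ∈ U, 0 < n) {y : ℕ} (hy : Icc 1 y ⊆ U) {η : ℝ} (hη : 0 < η) :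
    ∀ᶠ T : ℝ in atTop, ∀ σ : ℝ, σ₀ ≤ σ → σ ≤ 4 →
      (∫ t in (2 : ℝ)..T, ‖riemannZeta (σ + t * I) - lineSum σ U t‖ ^ 2) / T ≤
        2 * tailSum σ₀ y + η := by
  obtain ⟨N, hN⟩ : ∃ N, N = U.sup id := ⟨_, rfl⟩
  have hfl : Tendsto (fun T : ℝ => ⌊T⌋₊) atTop atTop := tendsto_nat_floor_atTop
  have h1 : Tendsto (fun T : ℝ => 2 * (24000000 * (T ^ (1 / 2 - σ₀)) ^ 2)) atTop (𝓝 0) := by
    have := (tendsto_rpow_neg_atTop (show 0 < σ₀ - 1 / 2 by linarith)).pow 2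
    simpa [neg_sub] using (this.const_mul (24000000 : ℝ)).const_mul (2 : ℝ)
  have h2 : Tendsto (fun T : ℝ => 12 * π * (eSum σ₀ ⌊T⌋₊ / (⌊T⌋₊ : ℝ))) atTop (𝓝 0) := by
    simpa using ((FA.BohrLandau.tendsto_eSum_div hσ₀).comp hfl).const_mul (12 * π)
  filter_upwards [(h1.add h2).eventually (eventually_le_nhds (show (0 : ℝ) + 0 < η by linarith)),
    eventually_ge_atTop ((N : ℝ) + 2)] with T hlim hTN σ hσ hσ4
  have hT : 2 ≤ T := by linarith [(Nat.cast_nonneg N : (0 : ℝ) ≤ N)]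
  obtain ⟨M, hM⟩ : ∃ M, M = ⌊T⌋₊ := ⟨_, rfl⟩
  have hUM : U ⊆ Icc 1 M := fun n hn => mem_Icc.2 ⟨hU n hn, hM ▸ Nat.le_floor (by
    have : (n : ℝ) ≤ N := Nat.cast_le.2 (hN ▸ le_sup (f := id) hn)
    linarith)⟩
  obtain ⟨D, hD⟩ : ∃ D : ℝ → ℂ, D = lineSum σ (Icc 1 M \ U) := ⟨_, rfl⟩
  have hDc : Continuous D := hD ▸ continuous_lineSum fun n hn =>
    (mem_Icc.1 (Finset.mem_sdiff.1 hn).1).1
  have hsplit : ∀ t : ℝ, riemannZeta (σ + t * I) - lineSum σ U t = vertErr σ M t + D t :=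
    fun t => by
    rw [vertErr, vertSum_eq_lineSum, hD]
    simp only [lineSum, dpoly]
    rw [← sum_sdiff hUM]
    ring
  have hDle : ∫ t in (2 : ℝ)..T, ‖D t‖ ^ 2 ≤ T * tailSum σ₀ y + 6 * π * eSum σ₀ M := by
    have h := (abs_le.1 (FA.MeanValue.mean_value_dirichlet
      (fun n => if n ∈ U then 0 else lineCoeff σ n) M 2 T)).2
    have e : ∀ t : ℝ, ∑ n ∈ Icc 1 M, (if n ∈ U then 0 else lineCoeff σ n) *
        (n : ℂ) ^ (-(I * (t : ℂ))) = D t := fun t => by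
      rw [hD, lineSum, dpoly, ← sum_sdiff hUM]
      rw [sum_eq_zero (s := U) fun n hn => by rw [if_pos hn, zero_mul], add_zero]
      refine sum_congr rfl fun n hn => ?_
      rw [if_neg (Finset.mem_sdiff.1 hn).2]
      rfl
    simp only [e] at h
    have hsum : ∑ n ∈ Icc 1 M, ‖if n ∈ U then 0 else lineCoeff σ n‖ ^ 2 ≤ tailSum σ₀ y := by
      refine le_trans (le_of_eq ?_)
        (sum_le_tailSum_of_le hσ₀ hσ (s := Icc 1 M \ U) fun n hn => ?_)
      · rw [← sum_sdiff hUM, sum_eq_zero (s := U) fun n hn => by simp [hn], add_zero]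
        exact sum_congr rfl fun n hn => by rw [if_neg (Finset.mem_sdiff.1 hn).2]
      · rw [Finset.mem_sdiff, mem_Icc] at hn
        by_contra hle
        exact hn.2 (hy (mem_Icc.2 ⟨hn.1.1, by omega⟩))
    have herr : 4 * π * ∑ n ∈ Icc 1 M, ((n : ℝ) + 1 / 2) *
        ‖if n ∈ U then 0 else lineCoeff σ n‖ ^ 2 ≤ 6 * π * eSum σ₀ M := by
      refine le_trans ?_ (mul_le_mul_of_nonneg_left (eSum_anti hσ M) (by positivity))
      rw [eSum, mul_sum, mul_sum]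
      refine sum_le_sum fun n hn => ?_
      have hn1 : (1 : ℝ) ≤ n := by exact_mod_cast (mem_Icc.1 hn).1
      rw [show (1 - 2 * σ) = -(2 * σ) + 1 by ring, Real.rpow_add (by linarith), Real.rpow_one,
        ← norm_sq_lineCoeff]
      split_ifs
      · simp only [norm_zero, ne_eq, OfNat.ofNat_ne_zero, not_false_eq_true, zero_pow, mul_zero]
        positivity
      · nlinarith [mul_nonneg (mul_nonneg Real.pi_pos.le (sq_nonneg ‖lineCoeff σ n‖))
          (sub_nonneg.2 hn1)]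
    have h0 : 0 ≤ ∑ n ∈ Icc 1 M, ‖if n ∈ U then 0 else lineCoeff σ n‖ ^ 2 :=
      sum_nonneg fun n _ => sq_nonneg _
    nlinarith
  have hE := FA.BohrLandau.integral_vertErr_le (σ := σ) (by linarith) hσ4 hT
  have hP : (T ^ (1 / 2 - σ)) ^ 2 ≤ (T ^ (1 / 2 - σ₀)) ^ 2 :=
    pow_le_pow_left₀ (Real.rpow_nonneg (by linarith) _)
      (Real.rpow_le_rpow_of_exponent_le (by linarith) (by linarith)) 2
  rw [← hM] at hE hlim
  have hEi := FA.BohrLandau.intervalIntegrable_vertErr σ M two_pos (show 0 < T by linarith)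
  have hDi : IntervalIntegrable (fun t => ‖D t‖ ^ 2) volume 2 T :=
    (hDc.norm.pow 2).intervalIntegrable _ _
  rw [div_le_iff₀ (by linarith)]
  refine (intervalIntegral.integral_mono_on hT
    ((((continuousOn_zeta_line σ hT).sub (continuous_lineSum hU).continuousOn).norm.pow
      2).intervalIntegrable) ((hEi.const_mul 2).add (hDi.const_mul 2)) fun t _ => ?_).trans ?_
  · simp only [Pi.pow_apply, Pi.sub_apply]
    rw [hsplit]
    have := norm_add_le (vertErr σ M t) (D t)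
    nlinarith [sq_nonneg (‖vertErr σ M t‖ - ‖D t‖), norm_nonneg (vertErr σ M t + D t)]
  rw [intervalIntegral.integral_add (hEi.const_mul 2) (hDi.const_mul 2),
    intervalIntegral.integral_const_mul, intervalIntegral.integral_const_mul]
  have hM0 : 0 < (M : ℝ) := Nat.cast_pos.2 (hM ▸ Nat.floor_pos.2 (by linarith))
  have hMT : (M : ℝ) ≤ T := hM ▸ Nat.floor_le (by linarith)
  have he0 : 0 ≤ eSum σ₀ M := sum_nonneg fun n _ => Real.rpow_nonneg (Nat.cast_nonneg n) _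
  have hq : 12 * π * eSum σ₀ M ≤ 12 * π * (eSum σ₀ M / M) * T := by
    rw [mul_assoc (12 * π), div_mul_eq_mul_div]
    refine mul_le_mul_of_nonneg_left ?_ (by positivity)
    rw [le_div_iff₀ hM0]
    exact mul_le_mul_of_nonneg_left hMT he0
  nlinarith [mul_le_mul_of_nonneg_right hlim (show 0 ≤ T by linarith),
    mul_le_mul_of_nonneg_right hP (show 0 ≤ T by linarith)]

/-- The approximation in mean square on one line. -/
theorem eventually_meanSquare_sub_le {σ : ℝ} (hσ : 1 / 2 < σ) (hσ4 : σ ≤ 4) {U : Finset ℕ}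
    (hU : ∀ n ∈ U, 0 < n) {y : ℕ} (hy : Icc 1 y ⊆ U) {η : ℝ} (hη : 0 < η) :
    ∀ᶠ T : ℝ in atTop,
      (∫ t in (2 : ℝ)..T, ‖riemannZeta (σ + t * I) - lineSum σ U t‖ ^ 2) / T ≤
        2 * tailSum σ y + η :=
  (eventually_meanSquare_sub_le_uniform hσ hU hy hη).mono fun _ h => h σ le_rfl hσ4

end FA.BohrCourant
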