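import Fermat.Agent.MeanValue.Dirichlet
import Mathlib.NumberTheory.Primorial
import Mathlib.Data.Nat.Factorization.Basic
import Mathlib.Data.Fintype.BigOperators

/-!
# Products of Dirichlet polynomials in separate primes

For coefficients `c p e` on the powers of the primes `p` of a finite set and `b m` on numbers prime
to all of them, the product has mean square `∏ p ∑ e |c p e|² · ∑ m |b m|²`.
-/

set_option autoImplicit false

noncomputable section

namespace FA.BohrCourant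

open Finset Filter Complex MeasureTheory
open scoped Topology Real

/-- `n ^ (-it)`. -/
def dmono (n : ℕ) (t : ℝ) : ℂ := (n : ℂ) ^ (-(I * (t : ℂ)))

theorem dmono_one (t : ℝ) : dmono 1 t = 1 := by simp [dmono]

theorem dmono_mul (m n : ℕ) (t : ℝ) : dmono (m * n) t = dmono m t * dmono n t := by
  rw [dmono, Nat.cast_mul]
  exact Complex.natCast_mul_natCast_cpow m n _

theorem dmono_pow (n e : ℕ) (t : ℝ) : dmono (n ^ e) t = dmono n t ^ e := by
  induction e with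
  | zero => rw [pow_zero, pow_zero, dmono_one]
  | succ e ih => rw [pow_succ, pow_succ, dmono_mul, ih]

theorem dmono_prod {ι : Type*} (s : Finset ι) (f : ι → ℕ) (t : ℝ) :
    dmono (∏ i ∈ s, f i) t = ∏ i ∈ s, dmono (f i) t := by
  classical
  induction s using Finset.induction_on with
  | empty => rw [prod_empty, prod_empty, dmono_one]
  | insert a s ha ih => rw [prod_insert ha, prod_insert ha, dmono_mul, ih]

theorem norm_dmono {n : ℕ} (hn : 0 < n) (t : ℝ) : ‖dmono n t‖ = 1 := by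
  rw [dmono, Complex.norm_natCast_cpow_of_pos hn]
  simp

theorem continuous_dmono {n : ℕ} (hn : 0 < n) : Continuous (dmono n) :=
  (continuous_const.mul Complex.continuous_ofReal).neg.const_cpow
    (Or.inl (Nat.cast_ne_zero.2 hn.ne'))

/-- A Dirichlet polynomial indexed by a finite set. -/
def dpoly {ι : Type*} (s : Finset ι) (m : ι → ℕ) (a : ι → ℂ) (t : ℝ) : ℂ :=
  ∑ i ∈ s, a i * dmono (m i) t

theorem continuous_dpoly {ι : Type*} {s : Finset ι} {m : ι → ℕ} (hm : ∀ i ∈ s, 0 < m i)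
    (a : ι → ℂ) : Continuous (dpoly s m a) :=
  continuous_finsetSum _ fun i hi => continuous_const.mul (continuous_dmono (hm i hi))

/-- The mean square of a Dirichlet polynomial, with an error free of the coefficients' phases. -/
theorem abs_dpoly_sq_sub_le {ι : Type*} {s : Finset ι} {m : ι → ℕ} (hm : ∀ i ∈ s, 0 < m i)
    (hinj : Set.InjOn m s) (a : ι → ℂ) {N : ℕ} (hN : ∀ i ∈ s, m i ≤ N) (T : ℝ) :
    |(∫ t in (2 : ℝ)..T, ‖dpoly s m a t‖ ^ 2) - T * ∑ i ∈ s, ‖a i‖ ^ 2| ≤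
      (6 * π * N + 2) * ∑ i ∈ s, ‖a i‖ ^ 2 := by
  classical
  obtain ⟨b, hb⟩ : ∃ b : ℕ → ℂ, b = fun n => ∑ i ∈ s.filter (fun i => m i = n), a i := ⟨_, rfl⟩
  have hmaps : ∀ i ∈ s, m i ∈ Icc 1 N := fun i hi => mem_Icc.2 ⟨hm i hi, hN i hi⟩
  have hfun : ∀ t, dpoly s m a t = ∑ n ∈ Icc 1 N, b n * (n : ℂ) ^ (-(I * (t : ℂ))) := fun t => by
    rw [dpoly, ← sum_fiberwise_of_maps_to hmaps]
    refine sum_congr rfl fun n _ => ?_
    rw [hb, sum_mul]
    exact sum_congr rfl fun i hi => by rw [(mem_filter.1 hi).2]; rfl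
  have hnorm : ∑ i ∈ s, ‖a i‖ ^ 2 = ∑ n ∈ Icc 1 N, ‖b n‖ ^ 2 := by
    rw [← sum_fiberwise_of_maps_to hmaps (fun i => ‖a i‖ ^ 2)]
    refine sum_congr rfl fun n _ => ?_
    rw [hb]
    simp only
    rcases (s.filter fun i => m i = n).eq_empty_or_nonempty with h | ⟨i, hi⟩
    · rw [h]; simp
    · have e : s.filter (fun i => m i = n) = {i} := eq_singleton_iff_unique_mem.2 ⟨hi, fun j hj =>
        hinj (mem_filter.1 hj).1 (mem_filter.1 hi).1
          ((mem_filter.1 hj).2.trans (mem_filter.1 hi).2.symm)⟩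
      rw [e, sum_singleton, sum_singleton]
  simp only [hfun, hnorm]
  have hE : 4 * π * ∑ n ∈ Icc 1 N, ((n : ℝ) + 1 / 2) * ‖b n‖ ^ 2 ≤
      6 * π * N * ∑ n ∈ Icc 1 N, ‖b n‖ ^ 2 := by
    rw [mul_sum, mul_sum]
    refine sum_le_sum fun n hn => ?_
    have hn1 : (1 : ℝ) ≤ n := by exact_mod_cast (mem_Icc.1 hn).1
    have hnN : (n : ℝ) ≤ N := by exact_mod_cast (mem_Icc.1 hn).2
    nlinarith [mul_nonneg (mul_nonneg Real.pi_pos.le (sq_nonneg ‖b n‖))
      (show 0 ≤ (N : ℝ) * 6 - ((n : ℝ) + 1 / 2) * 4 by linarith)]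
  have h := abs_le.1 (FA.MeanValue.mean_value_dirichlet b N 2 T)
  have hS0 : 0 ≤ ∑ n ∈ Icc 1 N, ‖b n‖ ^ 2 := sum_nonneg fun n _ => sq_nonneg _
  rw [abs_le]
  constructor <;> linarith [h.1, h.2]

/-- The mean square of a Dirichlet polynomial. -/
theorem tendsto_dpoly_sq {ι : Type*} {s : Finset ι} {m : ι → ℕ} (hm : ∀ i ∈ s, 0 < m i)
    (hinj : Set.InjOn m s) (a : ι → ℂ) :
    Tendsto (fun T : ℝ => (∫ t in (2 : ℝ)..T, ‖dpoly s m a t‖ ^ 2) / T) atTop
      (𝓝 (∑ i ∈ s, ‖a i‖ ^ 2)) := by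
  have h0 : Tendsto (fun T : ℝ => (6 * π * (s.sup m : ℕ) + 2) * (∑ i ∈ s, ‖a i‖ ^ 2) / T) atTop
      (𝓝 0) := tendsto_const_nhds.div_atTop tendsto_id
  refine tendsto_iff_norm_sub_tendsto_zero.2 (squeeze_zero_norm' ?_ h0)
  filter_upwards [eventually_gt_atTop (0 : ℝ)] with T hT
  rw [norm_norm, Real.norm_eq_abs, div_sub' hT.ne', abs_div, abs_of_pos hT]
  exact div_le_div_of_nonneg_right
    (abs_dpoly_sq_sub_le hm hinj a (fun i hi => le_sup hi) T) hT.le

/-- The mean square is at most twice the sum of squares, for long intervals. -/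
theorem eventually_dpoly_sq_le {ι : Type*} {s : Finset ι} {m : ι → ℕ} (hm : ∀ i ∈ s, 0 < m i)
    (hinj : Set.InjOn m s) {η : ℝ} (hη : 0 < η) :
    ∀ᶠ T : ℝ in atTop, ∀ a : ι → ℂ,
      (∫ t in (2 : ℝ)..T, ‖dpoly s m a t‖ ^ 2) / T ≤ (1 + η) * ∑ i ∈ s, ‖a i‖ ^ 2 := by
  filter_upwards [eventually_ge_atTop ((6 * π * (s.sup m : ℕ) + 2) / η),
    eventually_gt_atTop (0 : ℝ)] with T hT hT0 a
  rw [div_le_iff₀ hη] at hT
  rw [div_le_iff₀ hT0]
  have h := (abs_le.1 (abs_dpoly_sq_sub_le hm hinj a (fun i hi => le_sup hi) T)).2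
  nlinarith [mul_le_mul_of_nonneg_right hT
    (sum_nonneg fun i (_ : i ∈ s) => sq_nonneg ‖a i‖)]

variable (P : Finset ℕ)

/-- `∏ p ^ f p` over the primes of the set. -/
def smoothNum (f : P → ℕ) : ℕ := ∏ i : P, (i : ℕ) ^ f i

theorem smoothNum_pos (hP : ∀ p ∈ P, p.Prime) (f : P → ℕ) : 0 < smoothNum P f :=
  prod_pos fun i _ => pow_pos (hP i i.2).pos _

theorem factorization_smoothNum (hP : ∀ p ∈ P, p.Prime) (f : P → ℕ) (q : P) :
    (smoothNum P f).factorization q = f q := by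
  classical
  rw [smoothNum, Nat.factorization_prod fun (i : P) _ => (pow_pos (hP i i.2).pos _).ne',
    Finsupp.finsetSum_apply, sum_eq_single q]
  · rw [(hP q q.2).factorization_pow, Finsupp.single_eq_same]
  · intro i _ hi
    rw [(hP i i.2).factorization_pow]
    exact Finsupp.single_eq_of_ne fun h => hi (Subtype.ext h.symm)
  · exact fun h => absurd (mem_univ q) h

/-- The numbers prime to the set. -/
def roughSet (y : ℕ) : Finset ℕ := (Icc 1 y).filter fun n => ∀ p ∈ P, ¬ p ∣ n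

theorem mem_roughSet {y n : ℕ} : n ∈ roughSet P y ↔ (1 ≤ n ∧ n ≤ y) ∧ ∀ p ∈ P, ¬ p ∣ n := by
  simp [roughSet]

theorem injOn_smoothNum_mul (hP : ∀ p ∈ P, p.Prime) {B : Finset (P → ℕ)} {y : ℕ} {R : Finset ℕ}
    (hR : R ⊆ roughSet P y) :
    Set.InjOn (fun x : (P → ℕ) × ℕ => smoothNum P x.1 * x.2) (B ×ˢ R : Finset _) := by
  rintro ⟨f, m⟩ hx ⟨g, n⟩ hy h
  simp only [mem_coe, mem_product] at hx hy
  obtain ⟨⟨hm, -⟩, hm'⟩ := (mem_roughSet P).1 (hR hx.2)
  obtain ⟨⟨hn, -⟩, hn'⟩ := (mem_roughSet P).1 (hR hy.2)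
  simp only at h
  have key : ∀ (F : P → ℕ) (k : ℕ), 1 ≤ k → (∀ p ∈ P, ¬ p ∣ k) → ∀ q : P,
      (smoothNum P F * k).factorization q = F q := fun F k hk hk' q => by
    rw [Nat.factorization_mul (smoothNum_pos P hP F).ne' (by omega), Finsupp.add_apply,
      factorization_smoothNum P hP, Nat.factorization_eq_zero_of_not_dvd (hk' q q.2), add_zero]
  have hfg : f = g := funext fun q => by
    rw [← key f m hm hm' q, h, key g n hn hn' q]
  subst hfg
  simp [mul_right_inj' (smoothNum_pos P hP f).ne'] at h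
  rw [h]

/-- `∏ p ∑ e ≤ K c p e p ^ (-iet)`. -/
def localProd (K : ℕ) (c : P → ℕ → ℂ) (t : ℝ) : ℂ :=
  ∏ i : P, ∑ e ∈ range (K + 1), c i e * dmono i t ^ e

/-- The exponent vectors. -/
def expBox (K : ℕ) : Finset (P → ℕ) := Fintype.piFinset fun _ => range (K + 1)

theorem localProd_mul_dpoly (K : ℕ) (c : P → ℕ → ℂ) (R : Finset ℕ) (b : ℕ → ℂ) (t : ℝ) :
    localProd P K c t * dpoly R id b t =
      dpoly (expBox P K ×ˢ R) (fun x => smoothNum P x.1 * x.2)
        (fun x => (∏ i, c i (x.1 i)) * b x.2) t := by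
  classical
  rw [localProd, prod_univ_sum, dpoly, dpoly, sum_mul_sum, sum_product]
  refine sum_congr rfl fun f _ => sum_congr rfl fun m _ => ?_
  rw [dmono_mul, smoothNum, dmono_prod]
  simp only [dmono_pow, id_eq, prod_mul_distrib]
  ring

theorem continuous_localProd (hP : ∀ p ∈ P, p.Prime) (K : ℕ) (c : P → ℕ → ℂ) :
    Continuous (localProd P K c) :=
  continuous_finsetProd _ fun i _ => continuous_finsetSum _ fun e _ =>
    continuous_const.mul ((continuous_dmono (hP i i.2).pos).pow e)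

/-- **The mean square factorises.** -/
theorem tendsto_localProd_sq (hP : ∀ p ∈ P, p.Prime) (K : ℕ) (c : P → ℕ → ℂ) {y : ℕ}
    {R : Finset ℕ} (hR : R ⊆ roughSet P y) (b : ℕ → ℂ) :
    Tendsto (fun T : ℝ => (∫ t in (2 : ℝ)..T, ‖localProd P K c t * dpoly R id b t‖ ^ 2) / T)
      atTop (𝓝 ((∏ i, ∑ e ∈ range (K + 1), ‖c i e‖ ^ 2) * ∑ m ∈ R, ‖b m‖ ^ 2)) := by
  classical
  simp only [localProd_mul_dpoly]
  have h := tendsto_dpoly_sq (s := expBox P K ×ˢ R) (m := fun x => smoothNum P x.1 * x.2)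
    (fun x hx => Nat.mul_pos (smoothNum_pos P hP _)
      ((mem_roughSet P).1 (hR (mem_product.1 hx).2)).1.1)
    (injOn_smoothNum_mul P hP hR) fun x => (∏ i, c i (x.1 i)) * b x.2
  have e : ∑ x ∈ expBox P K ×ˢ R, ‖(∏ i, c i (x.1 i)) * b x.2‖ ^ 2 =
      (∏ i, ∑ e ∈ range (K + 1), ‖c i e‖ ^ 2) * ∑ m ∈ R, ‖b m‖ ^ 2 := by
    rw [prod_univ_sum, sum_mul_sum, sum_product]
    refine sum_congr rfl fun f _ => sum_congr rfl fun m _ => ?_
    rw [norm_mul, mul_pow, norm_prod, ← prod_pow]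
  rwa [e] at h

theorem eventually_localProd_sq_le (hP : ∀ p ∈ P, p.Prime) (K : ℕ) {y : ℕ} {R : Finset ℕ}
    (hR : R ⊆ roughSet P y) {η : ℝ} (hη : 0 < η) :
    ∀ᶠ T : ℝ in atTop, ∀ (c : P → ℕ → ℂ) (b : ℕ → ℂ),
      (∫ t in (2 : ℝ)..T, ‖localProd P K c t * dpoly R id b t‖ ^ 2) / T ≤
        (1 + η) * ((∏ i, ∑ e ∈ range (K + 1), ‖c i e‖ ^ 2) * ∑ m ∈ R, ‖b m‖ ^ 2) := by
  classical
  filter_upwards [eventually_dpoly_sq_le (s := expBox P K ×ˢ R)
    (m := fun x => smoothNum P x.1 * x.2)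
    (fun x hx => Nat.mul_pos (smoothNum_pos P hP _)
      ((mem_roughSet P).1 (hR (mem_product.1 hx).2)).1.1)
    (injOn_smoothNum_mul P hP hR) hη] with T hT c b
  simp only [localProd_mul_dpoly]
  refine (hT fun x => (∏ i, c i (x.1 i)) * b x.2).trans (le_of_eq ?_)
  rw [expBox, prod_univ_sum, sum_mul_sum, sum_product]
  congr 1
  refine sum_congr rfl fun f _ => sum_congr rfl fun m _ => ?_
  rw [norm_mul, mul_pow, norm_prod, ← prod_pow]

theorem tendsto_localProd_sq_one (hP : ∀ p ∈ P, p.Prime) (K : ℕ) (c : P → ℕ → ℂ) :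
    Tendsto (fun T : ℝ => (∫ t in (2 : ℝ)..T, ‖localProd P K c t‖ ^ 2) / T)
      atTop (𝓝 (∏ i, ∑ e ∈ range (K + 1), ‖c i e‖ ^ 2)) := by
  have h := tendsto_localProd_sq P hP K c (y := 1) (R := {1}) (fun n hn => by
    rw [mem_singleton] at hn
    subst hn
    exact (mem_roughSet P).2 ⟨⟨le_rfl, le_rfl⟩, fun p hp hd =>
      (hP p hp).ne_one (Nat.dvd_one.1 hd)⟩) fun _ => 1
  simpa [dpoly, dmono_one] using h

end FA.BohrCourant
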